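import Fermat.Agent.F4.Loc.Smooth.Level
import Fermat.Agent.F4.Loc.FT
import Fermat.Agent.F4.Loc.InfRes

/-!
# F4 / Loc / Smooth / MA : the MA bridge for a local formation (seat S-MA, helper90)

`F : LocFormation q 𝓛 C`.  An `𝓛`-smooth 2-cocycle `w` of `C` whose image `toMul2 w` in `Ωˣ` is
the coboundary of a cochain `s` which is smooth for the full topology is an `𝓛`-smooth
coboundary of `C`:

`toMul2 w` is `V`-inflated for a level `V` (S-LVL); `s` is right-invariant under an open normal
`W`; with `W' = W ⊓ V`, Hilbert 90 for `W' ≤ V` (FTA) and the injectivity of inflation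
(`infl_injective`) give a `V`-inflated `s'` with `toMul2 w = mulD1 s'`; such an `s'` is `toMul1`
of an `𝓛`-smooth cochain of `C` (`j_range`, `j_inj`).
-/

set_option autoImplicit false
set_option linter.unusedSectionVars false
set_option linter.style.haveILetI false

open CategoryTheory groupCohomology

namespace Fermat.Agent.F4.Loc

section Generic

variable {q : ℕ} [Fact q.Prime]
variable {Γ : Type} [Group Γ] [MulSemiringAction Γ (PadicAlgCl q)]
  [MulDistribMulAction Γ (PadicAlgCl q)ˣ]

/-- Descent of a smooth trivialisation: a 2-cochain inflated from an open normal subgroup `V`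
which is the coboundary of a smooth cochain is the coboundary of a `V`-inflated cochain. -/
theorem ma_exists_isInfl1 (hΓ : IsLocalGal q Γ) {V : Subgroup Γ} [V.Normal] (hV : IsOpenSub q V)
    {c : Γ × Γ → (PadicAlgCl q)ˣ} (hc : IsInfl2 V c) (hsm : IsSmCob2 c) :
    ∃ s' : Γ → (PadicAlgCl q)ˣ, IsInfl1 V s' ∧ c = mulD1 s' := by
  obtain ⟨s, ⟨W, hWn, hWo, hWs⟩, hcs⟩ := hsm
  have : W.Normal := hWn
  have hn : (W ⊓ V).Normal := inferInstance
  have hH := h1Triv_of_open hΓ V (W ⊓ V) (hWo.inf hV) inf_le_right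
  exact infl_injective V (W ⊓ V) inf_le_right hH c hc s (fun g v hv => hWs g v hv.1) hcs

end Generic

namespace LocFormation

variable {q : ℕ} [Fact q.Prime] {Γ₀ : Type} [Group Γ₀]
  [MulSemiringAction Γ₀ (PadicAlgCl q)] [MulDistribMulAction Γ₀ (PadicAlgCl q)ˣ]
  {𝓛 : Levels Γ₀} {C : Rep.{0} ℤ Γ₀}

/-- **S-MA.**  The MA bridge for a local formation. -/
theorem maBridge (F : LocFormation q 𝓛 C) : MABridge F := by
  intro w hw hsm
  have hlc : IsLC₂ 𝓛 w := hw.2
  obtain ⟨V, hV, hinfl⟩ := F.exists_level_isInfl2 hlc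
  have hVn : V.Normal := 𝓛.normal V hV
  obtain ⟨s', hs', hws'⟩ := ma_exists_isInfl1 F.isLocalGal (F.isOpenSub V hV) hinfl hsm
  exact F.mem_B2_of_toMul2_eq_mulD1 hV hs' hws'

end LocFormation

end Fermat.Agent.F4.Loc
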