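import Fermat.Agent.F4.Loc.Smooth.Res
import Fermat.Agent.F4.Loc.Smooth.MA
import Fermat.Agent.F4.Loc.CO
import Fermat.Agent.F4.Shapiro.ModCor

/-!
# F4 / Loc / Smooth / F1 : `F1sm` for a local formation  (seat S-F1, helper89)

`F : LocFormation q 𝓛 C`.  Any two smooth 2-cocycles of `C` whose classes are killed by `p` are
dependent modulo smooth coboundaries (`UC.F1sm p 𝓛 C`).

Proof.  `V ∈ 𝓛` a level of `w₁, w₂`; `U` the preimage of a Sylow `p`-subgroup of `Γ₀ ⧸ V`.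
* over `U`: `dependent_of_pGroup` (seat ABS) for the local Galois group `↥U` and its open normal
  subgroup `V ∩ U` of `p`-power index, and the bridge `MA` for the formation over `U`, give
  `x, y` with `(x w₁ + y w₂)|_U ∈ B²`;
* `cor ∘ res = [Γ₀ : U]` (helper48's C3) gives `[Γ₀ : U] • (x w₁ + y w₂) ∈ B²`;
* `p • (x w₁ + y w₂) ∈ B²` and `p ∤ [Γ₀ : U]`.
-/

set_option autoImplicit false
set_option linter.unusedSectionVars false

open CategoryTheory groupCohomology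

namespace Fermat.Agent.F4.Loc

/-! ### the dictionary additive cochains of `C` ↔ multiplicative cochains -/

section Dict

variable {q : ℕ} [Fact q.Prime] {Γ₀ : Type} [Group Γ₀]
  [MulSemiringAction Γ₀ (PadicAlgCl q)] [MulDistribMulAction Γ₀ (PadicAlgCl q)ˣ]
  {𝓛 : Levels Γ₀} {C : Rep.{0} ℤ Γ₀} (F : LocFormation q 𝓛 C)

theorem f1_toMul2_apply (w : Γ₀ × Γ₀ → C) (x : Γ₀ × Γ₀) :
    F.toMul2 w x = Additive.toMul (F.j (w x)) := rfl

theorem f1_toMul1_apply (s : Γ₀ → C) (g : Γ₀) :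
    F.toMul1 s g = Additive.toMul (F.j (s g)) := rfl

theorem f1_toMul2_add (w w' : Γ₀ × Γ₀ → C) : F.toMul2 (w + w') = F.toMul2 w * F.toMul2 w' := by
  funext x
  simp only [f1_toMul2_apply, Pi.add_apply, Pi.mul_apply, map_add, toMul_add]

theorem f1_toMul2_nsmul (x : ℕ) (w : Γ₀ × Γ₀ → C) :
    F.toMul2 (fun p => (x : ℤ) • w p) = F.toMul2 w ^ x := by
  funext y
  simp only [f1_toMul2_apply, Pi.pow_apply, natCast_zsmul, map_nsmul, toMul_nsmul]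

theorem f1_toMul2_δ1 (s : Γ₀ → C) : F.toMul2 (δ1 C s) = mulD1 (F.toMul1 s) := by
  funext ⟨g, h⟩
  simp only [f1_toMul2_apply, f1_toMul1_apply, δ1_apply, mulD1_apply, map_add, map_sub,
    toMul_add, toMul_sub, F.j_comm, toMul_ofMul]

theorem f1_isMulCocycle₂ {w : Γ₀ × Γ₀ → C} (hw : w ∈ cocycles₂ C) :
    IsMulCocycle₂ (F.toMul2 w) := by
  intro g h j
  have h1 := (mem_cocycles₂_iff w).1 hw g h j
  have h2 := congrArg (fun c => Additive.toMul (F.j c)) h1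
  simp only [map_add, toMul_add, F.j_comm, toMul_ofMul] at h2
  exact h2

theorem f1_smoothC1 {s : Γ₀ → C} (hs : IsLC₁ 𝓛 s) : SmoothC1 q (F.toMul1 s) := by
  obtain ⟨W, hW, h⟩ := hs
  exact ⟨W, 𝓛.normal W hW, F.isOpenSub W hW, fun γ w hw => by
    rw [f1_toMul1_apply, f1_toMul1_apply, h γ w hw]⟩

theorem f1_isSmCob2_of_mem_B2 {w : Γ₀ × Γ₀ → C} (hw : w ∈ B2 𝓛 C) : IsSmCob2 (F.toMul2 w) := by
  obtain ⟨s, hs, rfl⟩ := hw
  exact ⟨F.toMul1 s, f1_smoothC1 F hs, f1_toMul2_δ1 F s⟩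

end Dict

/-! ### the `p`-group case -/

section PGroup

variable {q : ℕ} [Fact q.Prime] {Γ₀ : Type} [Group Γ₀]
  [MulSemiringAction Γ₀ (PadicAlgCl q)] [MulDistribMulAction Γ₀ (PadicAlgCl q)ˣ]
  {𝓛 : Levels Γ₀} {C : Rep.{0} ℤ Γ₀} (F : LocFormation q 𝓛 C)

/-- `F1sm` for cocycles of a level `V` of `p`-power index. -/
theorem f1_pGroup (hMA : MABridge F) (p : ℕ) [Fact p.Prime] (a : ℕ)
    (V : Subgroup Γ₀) (hV : V ∈ 𝓛.sets) (hidx : V.index = p ^ a)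
    (w₁ w₂ : Γ₀ × Γ₀ → C) (hw₁ : w₁ ∈ Z2 𝓛 C) (hw₂ : w₂ ∈ Z2 𝓛 C)
    (hc₁ : ∀ g g' s s', s ∈ V → s' ∈ V → w₁ (g * s, g' * s') = w₁ (g, g'))
    (hc₂ : ∀ g g' s s', s ∈ V → s' ∈ V → w₂ (g * s, g' * s') = w₂ (g, g'))
    (hp₁ : (fun x => (p : ℤ) • w₁ x) ∈ B2 𝓛 C) (hp₂ : (fun x => (p : ℤ) • w₂ x) ∈ B2 𝓛 C) :
    ∃ x y : ℕ, (¬ p ∣ x ∨ ¬ p ∣ y) ∧
      (fun z => (x : ℤ) • w₁ z + (y : ℤ) • w₂ z) ∈ B2 𝓛 C := by
  have hVn : V.Normal := 𝓛.normal V hV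
  have hco₁ := f1_isMulCocycle₂ F hw₁.1
  have hco₂ := f1_isMulCocycle₂ F hw₂.1
  have hi₁ : IsInfl2 V (F.toMul2 w₁) := isInfl2_of_isConst2 hco₁ (fun g g' v v' hv hv' => by
    rw [f1_toMul2_apply, f1_toMul2_apply, hc₁ g g' v v' hv hv'])
  have hi₂ : IsInfl2 V (F.toMul2 w₂) := isInfl2_of_isConst2 hco₂ (fun g g' v v' hv hv' => by
    rw [f1_toMul2_apply, f1_toMul2_apply, hc₂ g g' v v' hv hv'])
  have hs₁ : IsSmCob2 (F.toMul2 w₁ ^ p) := by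
    rw [← f1_toMul2_nsmul]
    exact f1_isSmCob2_of_mem_B2 F hp₁
  have hs₂ : IsSmCob2 (F.toMul2 w₂ ^ p) := by
    rw [← f1_toMul2_nsmul]
    exact f1_isSmCob2_of_mem_B2 F hp₂
  obtain ⟨x, y, hxy, h⟩ := dependent_of_pGroup F.isLocalGal a V (F.isOpenSub V hV) hidx _ _
    hco₁ hco₂ hi₁ hi₂ hs₁ hs₂
  refine ⟨x, y, hxy, hMA _ ?_ ?_⟩
  · exact add_mem (zsmul_mem hw₁ (x : ℤ)) (zsmul_mem hw₂ (y : ℤ))
  · have e : F.toMul2 (fun z => (x : ℤ) • w₁ z + (y : ℤ) • w₂ z) =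
        F.toMul2 w₁ ^ x * F.toMul2 w₂ ^ y := by
      rw [← f1_toMul2_nsmul, ← f1_toMul2_nsmul, ← f1_toMul2_add]
      rfl
    rw [e]
    exact h

end PGroup

/-! ### group theory: the preimage of a Sylow subgroup; restriction of coboundaries -/

section Sylow

variable {G : Type} [Group G]

/-- The preimage `U` of a Sylow `p`-subgroup of `G ⧸ V`: `p ∤ [G : U]`, `[U : V] = p ^ a`. -/
theorem f1_exists_sylow_preimage (p : ℕ) [Fact p.Prime] (V : Subgroup G) [V.Normal]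
    [V.FiniteIndex] :
    ∃ (U : Subgroup G) (a : ℕ), V ≤ U ∧ ¬ p ∣ U.index ∧ (V.subgroupOf U).index = p ^ a := by
  have : Finite (G ⧸ V) := Subgroup.finite_quotient_of_finiteIndex
  obtain ⟨P₀⟩ : Nonempty (Sylow p (G ⧸ V)) := inferInstance
  set U : Subgroup G := (P₀ : Subgroup (G ⧸ V)).comap (QuotientGroup.mk' V) with hUdef
  have hVU : V ≤ U := by
    intro v hv
    show QuotientGroup.mk' V v ∈ (P₀ : Subgroup (G ⧸ V))
    rw [QuotientGroup.mk'_apply, (QuotientGroup.eq_one_iff v).mpr hv]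
    exact one_mem _
  have hidx : U.index = (P₀ : Subgroup (G ⧸ V)).index :=
    Subgroup.index_comap_of_surjective _ (QuotientGroup.mk'_surjective V)
  obtain ⟨a, ha⟩ := P₀.2.exists_card_eq
  refine ⟨U, a, hVU, ?_, ?_⟩
  · rw [hidx]
    exact P₀.not_dvd_index
  · have h1 : V.relIndex U * U.index = V.index := Subgroup.relIndex_mul_index hVU
    have h2 : (P₀ : Subgroup (G ⧸ V)).index * Nat.card (P₀ : Subgroup (G ⧸ V)) =
        Nat.card (G ⧸ V) := Subgroup.index_mul_card _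
    have h3 : V.index = Nat.card (G ⧸ V) := Subgroup.index_eq_card V
    have h4 : U.index ≠ 0 := by
      rw [hidx]
      exact Subgroup.FiniteIndex.index_ne_zero
    have h5 : V.relIndex U * U.index = Nat.card (P₀ : Subgroup (G ⧸ V)) * U.index := by
      rw [h1, h3, ← h2, hidx, mul_comm]
    have h6 := Nat.eq_of_mul_eq_mul_right (Nat.pos_of_ne_zero h4) h5
    show V.relIndex U = p ^ a
    rw [h6]
    exact ha

variable (𝓤 : Levels G) (A : Rep.{0} ℤ G)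

/-- The restriction of a smooth coboundary to a subgroup is a smooth coboundary. -/
theorem f1_res_mem_B2 (U : Subgroup G) {w : G × G → A} (hw : w ∈ B2 𝓤 A) :
    (fun h : U × U => w (h.1, h.2)) ∈ B2 (𝓤.sub U) (Rep.res U.subtype A) := by
  obtain ⟨s, hs, rfl⟩ := hw
  refine ⟨fun h => s h, IsLC₁.comp_hom 𝓤 U.subtype hs, ?_⟩
  funext h
  simp [d₁₂_hom_apply]

end Sylow

/-! ### the main theorem -/

section Main

variable {q : ℕ} [Fact q.Prime] {Γ₀ : Type} [Group Γ₀]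
  [MulSemiringAction Γ₀ (PadicAlgCl q)] [MulDistribMulAction Γ₀ (PadicAlgCl q)ˣ]
  {𝓛 : Levels Γ₀} {C : Rep.{0} ℤ Γ₀}

/-- **F1sm**, from the bridge `MA` over the open subgroups and `cor ∘ res = index`. -/
theorem f1sm_of (p : ℕ) [Fact p.Prime]
    (hMA : ∀ U : Subgroup Γ₀, 𝓛.IsOpen U →
      ∃ F' : LocFormation q (𝓛.sub U) (Rep.res U.subtype C), MABridge F')
    (hcor : ∀ U : Subgroup Γ₀, 𝓛.IsOpen U → ∀ c : Γ₀ × Γ₀ → C, c ∈ Z2 𝓛 C →
      (fun h : U × U => c (h.1, h.2)) ∈ B2 (𝓛.sub U) (Rep.res U.subtype C) →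
      (fun z => (U.index : ℤ) • c z) ∈ B2 𝓛 C) :
    UC.F1sm p 𝓛 C := by
  intro w₁ w₂ hw₁ hw₂ hp₁ hp₂
  have hpp : p.Prime := Fact.out
  obtain ⟨V₁, hV₁, hc₁⟩ := hw₁.2
  obtain ⟨V₂, hV₂, hc₂⟩ := hw₂.2
  obtain ⟨V, hV, hVle⟩ := 𝓛.directed V₁ hV₁ V₂ hV₂
  have hVn := 𝓛.normal V hV
  have hVf := 𝓛.finiteIndex V hV
  obtain ⟨U, a, hVU, hpU, hidx⟩ := f1_exists_sylow_preimage p V
  have hU : 𝓛.IsOpen U := ⟨V, hV, hVU⟩
  obtain ⟨F', hMA'⟩ := hMA U hU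
  obtain ⟨x, y, hxy, h⟩ := f1_pGroup F' hMA' p a (V.subgroupOf U) ⟨V, hV, rfl⟩ hidx
    (fun h : U × U => w₁ (h.1, h.2)) (fun h : U × U => w₂ (h.1, h.2))
    (Z2res 𝓛 C U.subtype ⟨w₁, hw₁⟩).2 (Z2res 𝓛 C U.subtype ⟨w₂, hw₂⟩).2
    (fun g g' s s' hs hs' => hc₁ g g' s s' (hVle hs).1 (hVle hs').1)
    (fun g g' s s' hs hs' => hc₂ g g' s s' (hVle hs).2 (hVle hs').2)
    (f1_res_mem_B2 𝓛 C U hp₁) (f1_res_mem_B2 𝓛 C U hp₂)
  have hc : (fun z => (x : ℤ) • w₁ z + (y : ℤ) • w₂ z) ∈ Z2 𝓛 C :=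
    add_mem (zsmul_mem hw₁ (x : ℤ)) (zsmul_mem hw₂ (y : ℤ))
  have h1 := hcor U hU _ hc h
  have h2 : (fun z => (p : ℤ) • ((x : ℤ) • w₁ z + (y : ℤ) • w₂ z)) ∈ B2 𝓛 C := by
    have e : (fun z => (p : ℤ) • ((x : ℤ) • w₁ z + (y : ℤ) • w₂ z)) =
        (x : ℤ) • (fun z => (p : ℤ) • w₁ z) + (y : ℤ) • (fun z => (p : ℤ) • w₂ z) := by
      funext z
      simp only [Pi.add_apply, Pi.smul_apply, smul_add]
      rw [smul_comm (p : ℤ) (x : ℤ), smul_comm (p : ℤ) (y : ℤ)]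
    rw [e]
    exact add_mem (zsmul_mem hp₁ (x : ℤ)) (zsmul_mem hp₂ (y : ℤ))
  have hcop : IsCoprime (p : ℤ) (U.index : ℤ) := by
    rw [Int.isCoprime_iff_gcd_eq_one, Int.gcd_natCast_natCast]
    exact (Nat.Prime.coprime_iff_not_dvd hpp).2 hpU
  obtain ⟨u, v, huv⟩ := hcop
  refine ⟨x, y, ?_, ?_⟩
  · rcases hxy with h | h
    · exact Or.inl fun hd => h (Int.natCast_dvd_natCast.1 hd)
    · exact Or.inr fun hd => h (Int.natCast_dvd_natCast.1 hd)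
  · have e : (fun z => (x : ℤ) • w₁ z + (y : ℤ) • w₂ z) =
        u • (fun z => (p : ℤ) • ((x : ℤ) • w₁ z + (y : ℤ) • w₂ z)) +
        v • (fun z => (U.index : ℤ) • ((x : ℤ) • w₁ z + (y : ℤ) • w₂ z)) := by
      funext z
      simp only [Pi.add_apply, Pi.smul_apply]
      rw [← mul_smul, ← mul_smul, ← add_smul, huv, one_smul]
    rw [e]
    exact add_mem (zsmul_mem h2 u) (zsmul_mem h1 v)

/-- `cor ∘ res = index` (helper48's `card_smul_mem_B2_of_res`) in the form used above. -/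
theorem f1_index_smul_mem_B2 (U : Subgroup Γ₀) (hU : 𝓛.IsOpen U) (c : Γ₀ × Γ₀ → C)
    (hc : c ∈ Z2 𝓛 C)
    (hres : (fun h : U × U => c (h.1, h.2)) ∈ B2 (𝓛.sub U) (Rep.res U.subtype C)) :
    (fun z => (U.index : ℤ) • c z) ∈ B2 𝓛 C := by
  obtain ⟨V, hV, hVU⟩ := hU
  have hVf := 𝓛.finiteIndex V hV
  have hUf : U.FiniteIndex := Subgroup.finiteIndex_of_le hVU
  have : Finite (Γ₀ ⧸ U) := Subgroup.finite_quotient_of_finiteIndex
  let _ : Fintype (Γ₀ ⧸ U) := Fintype.ofFinite _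
  have h1 := card_smul_mem_B2_of_res U C ⟨V, hV, hVU⟩ hc hres
  have e : (fun z => (U.index : ℤ) • c z) = Fintype.card (Γ₀ ⧸ U) • c := by
    funext z
    rw [Subgroup.index_eq_card, Nat.card_eq_fintype_card, natCast_zsmul]
    rfl
  rw [e]
  exact h1

/-- **F1sm** for a local formation, given the bridge `MA` over the open subgroups. -/
theorem f1sm_of_maBridge (F : LocFormation q 𝓛 C) (p : ℕ) [Fact p.Prime]
    (hMA : ∀ (U : Subgroup Γ₀) (hU : 𝓛.IsOpen U), MABridge (F.res U hU)) :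
    UC.F1sm p 𝓛 C :=
  f1sm_of p (fun U hU => ⟨F.res U hU, hMA U hU⟩) f1_index_smul_mem_B2

/-- **S-F1**: the formation-level statement `F1sm` for a local formation. -/
theorem LocFormation.f1sm (F : LocFormation q 𝓛 C) (p : ℕ) [Fact p.Prime] : UC.F1sm p 𝓛 C :=
  f1sm_of_maBridge F p (fun U hU => (F.res U hU).maBridge)

end Main

end Fermat.Agent.F4.Loc
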