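import Fermat.Agent.F4.Loc.Smooth.Level
import Fermat.Agent.F4.Loc.CO

/-!
# F4 / Loc / Smooth / F3 : the formation-level statement `F3sm` (seat S-F3)

`F : LocFormation q 𝓛 C`, `p` a prime.  For every nonzero `𝓛`-smooth character
`χ : Γ₀ → ZMod p` there is an invariant `x ∈ C^{Γ₀}` whose carry cochain `x ∪ δχ` is not an
`𝓛`-smooth coboundary.

Proof: `χ` is a surjective monoid homomorphism `Γ₀ →* Multiplicative (ZMod p)` whose kernel
contains a level, hence is open; FTB (`exists_not_norm`) gives a unit `a` of the fixed field which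
is not a norm from the cyclic layer of `χ`; `x := j⁻¹ a`; the image of the carry cochain of `x` is
the cyclic cocycle of `a`, which is not a smooth coboundary by F3 (`not_isSmCob2_cycCocycle`).
-/

set_option autoImplicit false

open CategoryTheory groupCohomology

namespace Fermat.Agent.F4.Loc

namespace LocFormation

variable {q : ℕ} [Fact q.Prime] {Γ₀ : Type} [Group Γ₀]
  [MulSemiringAction Γ₀ (PadicAlgCl q)] [MulDistribMulAction Γ₀ (PadicAlgCl q)ˣ]
  {𝓛 : Levels Γ₀} {C : Rep.{0} ℤ Γ₀} (F : LocFormation q 𝓛 C)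

/-- An additive character as a monoid homomorphism to `Multiplicative (ZMod p)`. -/
def f3smChar {p : ℕ} (χ : Γ₀ → ZMod p) (hχ : ∀ g h, χ (g * h) = χ g + χ h) :
    Γ₀ →* Multiplicative (ZMod p) where
  toFun g := Multiplicative.ofAdd (χ g)
  map_one' := by
    have h := hχ 1 1
    rw [mul_one] at h
    have h0 : χ 1 = 0 := by
      have := congrArg (fun t => t - χ 1) h
      simpa using this.symm
    rw [h0]
    rfl
  map_mul' g h := by
    rw [hχ g h]
    rfl

theorem f3smChar_apply {p : ℕ} (χ : Γ₀ → ZMod p) (hχ : ∀ g h, χ (g * h) = χ g + χ h) (g : Γ₀) :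
    Multiplicative.toAdd (f3smChar χ hχ g) = χ g := rfl

/-- A nonzero character to `ZMod p`, `p` prime, is surjective. -/
theorem f3smChar_surjective {p : ℕ} [Fact p.Prime] (χ : Γ₀ → ZMod p)
    (hχ : ∀ g h, χ (g * h) = χ g + χ h) (hχ0 : χ ≠ 0) :
    Function.Surjective (f3smChar χ hχ) := by
  have hne : ∃ g, χ g ≠ 0 := by
    by_contra h
    exact hχ0 (funext fun g => not_not.1 fun hg => h ⟨g, hg⟩)
  obtain ⟨g, hg⟩ := hne
  intro y
  set n : ℕ := (Multiplicative.toAdd y * (χ g)⁻¹).val with hn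
  refine ⟨g ^ n, ?_⟩
  apply Multiplicative.toAdd.injective
  rw [map_pow, toAdd_pow, f3smChar_apply, nsmul_eq_mul, hn, ZMod.natCast_zmod_val,
    inv_mul_cancel_right₀ hg]

/-- The kernel of a level-constant character contains a level. -/
theorem f3sm_level_le_ker {p : ℕ} (χ : Γ₀ → ZMod p) (hχ : ∀ g h, χ (g * h) = χ g + χ h)
    (hLC : IsLC₁ 𝓛 χ) : ∃ V ∈ 𝓛.sets, V ≤ (f3smChar χ hχ).ker := by
  obtain ⟨V, hV, h⟩ := hLC
  refine ⟨V, hV, fun v hv => ?_⟩
  rw [MonoidHom.mem_ker]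
  have h1 := h 1 v hv
  rw [one_mul] at h1
  have h2 : f3smChar χ hχ v = f3smChar χ hχ 1 := congrArg Multiplicative.ofAdd h1
  rw [h2, map_one]

/-- The image of the carry cochain of `x` is the cyclic cocycle of `jm x`. -/
theorem f3sm_toMul2_carryCo {p : ℕ} [NeZero p] (χ : Γ₀ → ZMod p) (hχ : ∀ g h, χ (g * h) = χ g + χ h)
    (x : C) : F.toMul2 (UC.carryCo C χ x) = cycCocycle (f3smChar χ hχ) (F.jm x) := by
  funext ⟨g, h⟩
  rw [toMul2_apply, UC.carryCo_apply, jm_nsmul, cycCocycle_apply]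
  rfl

include F in
/-- **S-F3**: the formation-level statement `F3sm` for a local formation. -/
theorem f3sm (p : ℕ) [Fact p.Prime] : UC.F3sm p 𝓛 C := by
  intro χ hχ hLC hχ0
  have : NeZero p := ⟨(Fact.out : p.Prime).ne_zero⟩
  have hΓ := F.isLocalGal
  have hsurj := f3smChar_surjective χ hχ hχ0
  obtain ⟨V, hV, hVker⟩ := f3sm_level_le_ker (𝓛 := 𝓛) χ hχ hLC
  have hker : IsOpenSub q (f3smChar χ hχ).ker := (F.isOpenSub V hV).of_le hΓ hVker
  obtain ⟨σ, hσ⟩ := hsurj (Multiplicative.ofAdd 1)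
  obtain ⟨a, ha, hna⟩ := exists_not_norm hΓ (f3smChar χ hχ) hsurj hker σ hσ
  obtain ⟨x, hx, hxa⟩ := F.exists_jm_eq_of_fixed (u := a) fun g => ha g (Subgroup.mem_top g)
  refine ⟨x, hx, fun hB => ?_⟩
  have h1 := F.isSmCob2_toMul2_of_mem_B2 hB
  rw [F.f3sm_toMul2_carryCo χ hχ x, hxa] at h1
  exact not_isSmCob2_cycCocycle hΓ (f3smChar χ hχ) hsurj hker σ hσ a ha hna h1

end LocFormation

end Fermat.Agent.F4.Loc
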