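import Fermat.Agent.F4.Loc.Formation
import Fermat.Agent.F4.Loc.FT
import Fermat.Agent.F4.Loc.KummerFin
import Fermat.Agent.F4.Loc.Base

/-!
# F4 / Loc / Smooth / KFin : finiteness of `Hom_sm(Γ, 𝔽_p)` for a local Galois group (seat kfin)

`Γ` a local Galois group (`IsLocalGal q Γ`), `p` any prime.  The smooth characters `Γ → ℤ/p` are
finite in number (local Kummer theory):

* if `Γ` fixes a primitive `p`-th root of unity `ζ`: for a smooth character `χ`, `γ ↦ ζ ^ χ γ` is a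
  smooth 1-cocycle, hence (Hilbert 90, FTA) `= γ • b / b`; `b ^ p ∈ E^×` and `χ ↦ b ^ p` is
  injective modulo `p`-th powers; `E^× / (E^×)^p` is finite (`finite_units_mod_pow`, KFIN);
* in general restrict to the stabiliser `Γ'` of `ζ`: `γ ^ (p - 1) ∈ Γ'` for all `γ`, so the
  restriction of characters is injective.

Main results: `kfin_finite` (finiteness of `smChars q Γ p`), `homFinite : HomFinite p 𝓛` for every
level structure with open levels.
-/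

set_option autoImplicit false
set_option linter.unusedSectionVars false

open scoped NNReal
open groupCohomology

namespace Fermat.Agent.F4.Loc

variable {q : ℕ} [Fact q.Prime]
variable {Γ : Type} [Group Γ] [MulSemiringAction Γ (PadicAlgCl q)]
  [MulDistribMulAction Γ (PadicAlgCl q)ˣ]

variable (q Γ) in
/-- The smooth additive characters `Γ → ℤ/p`. -/
def smChars (p : ℕ) : Set (Γ → ZMod p) :=
  {χ | (∀ g h : Γ, χ (g * h) = χ g + χ h) ∧ SmoothC1 q χ}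

omit [Fact q.Prime] [MulSemiringAction Γ (PadicAlgCl q)] [MulDistribMulAction Γ (PadicAlgCl q)ˣ] in
lemma kfin_map_one {p : ℕ} {χ : Γ → ZMod p} (h : ∀ g h : Γ, χ (g * h) = χ g + χ h) : χ 1 = 0 := by
  have := h 1 1
  rw [mul_one] at this
  exact left_eq_add.1 this

omit [Fact q.Prime] [MulSemiringAction Γ (PadicAlgCl q)] [MulDistribMulAction Γ (PadicAlgCl q)ˣ] in
lemma kfin_map_pow {p : ℕ} {χ : Γ → ZMod p} (h : ∀ g h : Γ, χ (g * h) = χ g + χ h) (γ : Γ)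
    (n : ℕ) : χ (γ ^ n) = n • χ γ := by
  induction n with
  | zero => rw [pow_zero, zero_smul, kfin_map_one h]
  | succ n ih => rw [pow_succ, h, ih, succ_nsmul]

/-- Kummer: a smooth character is `γ ↦ γ • b / b` composed with `ζ ^ ·`. -/
lemma kfin_exists_kummer (hΓ : IsLocalGal q Γ) {p : ℕ} [Fact p.Prime] (ζ : (PadicAlgCl q)ˣ)
    (hζfix : ∀ γ : Γ, γ • ζ = ζ) (hζp : ζ ^ p = 1) {χ : Γ → ZMod p} (hχ : χ ∈ smChars q Γ p) :
    ∃ b : (PadicAlgCl q)ˣ, ∀ γ : Γ, γ • b / b = ζ ^ (χ γ).val := by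
  obtain ⟨hadd, W, hWn, hWo, hWs⟩ := hχ
  have : W.Normal := hWn
  have hH := h1Triv_of_open hΓ ⊤ W hWo le_top
  obtain ⟨x, hx⟩ := hH (fun h => ζ ^ (χ (h : Γ)).val) (fun g h => by
      show ζ ^ (χ ((g : Γ) * (h : Γ))).val = (g : Γ) • ζ ^ (χ (h : Γ)).val * ζ ^ (χ (g : Γ)).val
      rw [smul_pow', hζfix, hadd, ZMod.val_add, ← pow_eq_pow_mod _ hζp, pow_add, mul_comm])
    (fun h v hv => by
      show ζ ^ (χ ((h : Γ) * (v : Γ))).val = ζ ^ (χ (h : Γ)).val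
      rw [hWs _ _ hv])
  exact ⟨x, fun γ => hx ⟨γ, Subgroup.mem_top γ⟩⟩

/-- Finiteness of the smooth characters when `Γ` fixes a primitive `p`-th root of unity. -/
lemma kfin_finite_of_fixed (hΓ : IsLocalGal q Γ) {p : ℕ} [Fact p.Prime] (ζ : PadicAlgCl q)
    (hζ : IsPrimitiveRoot ζ p) (hfix : ∀ γ : Γ, γ • ζ = ζ) : (smChars q Γ p).Finite := by
  classical
  have hp : p.Prime := Fact.out
  have : NeZero p := ⟨hp.ne_zero⟩
  have hcompat := hΓ.1
  obtain ⟨-, E, e, hfin, he⟩ := id hΓ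
  have hfixE : ∀ x : PadicAlgCl q, (∀ γ : Γ, γ • x = x) ↔ x ∈ E := by
    intro x
    constructor
    · intro hx
      rw [← InfiniteGalois.fixedField_fixingSubgroup E, IntermediateField.mem_fixedField_iff]
      intro σ hσ
      have h1 := hx (e.symm ⟨σ, hσ⟩)
      rw [he, e.apply_symm_apply] at h1
      exact h1
    · intro hx γ
      rw [he]
      exact (IntermediateField.mem_fixingSubgroup_iff _ _).mp (e γ).2 x hx
  have hζ0 : ζ ≠ 0 := hζ.ne_zero hp.ne_zero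
  let ζu : (PadicAlgCl q)ˣ := Units.mk0 ζ hζ0
  have hζufix : ∀ γ : Γ, γ • ζu = ζu := fun γ => Units.ext (by rw [hcompat]; exact hfix γ)
  have hζup : ζu ^ p = 1 := Units.ext (by
    rw [Units.val_pow_eq_pow_val]; exact hζ.pow_eq_one)
  have hex : ∀ χ : Γ → ZMod p, χ ∈ smChars q Γ p →
      ∃ b : (PadicAlgCl q)ˣ, ∀ γ : Γ, γ • b / b = ζu ^ (χ γ).val :=
    fun χ hχ => kfin_exists_kummer hΓ ζu hζufix hζup hχ
  choose! b hb using hex
  -- `b χ ^ p` lies in `E`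
  have hbE : ∀ χ ∈ smChars q Γ p, ((b χ ^ p : (PadicAlgCl q)ˣ) : PadicAlgCl q) ∈ E := by
    intro χ hχ
    rw [← hfixE]
    intro γ
    rw [← hcompat, smul_pow']
    have h1 : γ • b χ = b χ * ζu ^ (χ γ).val := by
      rw [← hb χ hχ γ]; simp
    rw [h1, mul_pow, ← pow_mul, mul_comm (χ γ).val p, pow_mul, hζup, one_pow, mul_one]
  have hfinQ : Finite ((↥E)ˣ ⧸ (powMonoidHom p : (↥E)ˣ →* (↥E)ˣ).range) :=
    finite_units_mod_pow (resVal E (padicVal q)) (padicVal_isLocalVal q E) p hp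
  let A : ↥(smChars q Γ p) → (↥E)ˣ := fun χ =>
    Units.mk0 ⟨_, hbE χ.1 χ.2⟩ (fun h => by
      have h1 := congrArg Subtype.val h
      simp only [ZeroMemClass.coe_zero] at h1
      exact (b χ.1 ^ p).ne_zero h1)
  have hA : ∀ χ : ↥(smChars q Γ p), (((A χ : (↥E)ˣ) : ↥E) : PadicAlgCl q)
      = ((b χ.1 ^ p : (PadicAlgCl q)ˣ) : PadicAlgCl q) := fun χ => rfl
  let f : ↥(smChars q Γ p) → (↥E)ˣ ⧸ (powMonoidHom p : (↥E)ˣ →* (↥E)ˣ).range :=
    fun χ => QuotientGroup.mk (A χ)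
  have hinj : Function.Injective f := by
    intro χ χ' hff
    obtain ⟨y, hy⟩ := (QuotientGroup.eq.1 hff : (A χ)⁻¹ * A χ' ∈ _)
    simp only [powMonoidHom_apply] at hy
    -- in `Ωˣ`
    have hy0 : (((y : ↥E) : PadicAlgCl q)) ≠ 0 := fun h => y.ne_zero (Subtype.ext h)
    let yu : (PadicAlgCl q)ˣ := Units.mk0 _ hy0
    have hyfix : ∀ γ : Γ, γ • yu = yu := fun γ =>
      Units.ext (by rw [hcompat]; exact (hfixE _).2 (y : ↥E).2 γ)
    have hyp : yu ^ p * b χ.1 ^ p = b χ'.1 ^ p := by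
      apply Units.ext
      have h1 : (((y ^ p : (↥E)ˣ) : ↥E) : PadicAlgCl q)
          = ((((A χ)⁻¹ * A χ' : (↥E)ˣ) : ↥E) : PadicAlgCl q) := by rw [hy]
      have h2 : (((A χ : (↥E)ˣ) : ↥E) : PadicAlgCl q) * (((y ^ p : (↥E)ˣ) : ↥E) : PadicAlgCl q)
          = (((A χ' : (↥E)ˣ) : ↥E) : PadicAlgCl q) := by
        rw [h1, ← MulMemClass.coe_mul, ← Units.val_mul, mul_inv_cancel_left]
      rw [hA, hA] at h2
      rw [Units.val_mul, ← h2, mul_comm]
      congr 1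
    let η : (PadicAlgCl q)ˣ := b χ'.1 / (yu * b χ.1)
    have hηp : η ^ p = 1 := by
      show (b χ'.1 / (yu * b χ.1)) ^ p = 1
      rw [div_pow, mul_pow, hyp, div_self']
    have hηfix : ∀ γ : Γ, γ • η = η := by
      intro γ
      have h1 : ((η : (PadicAlgCl q)ˣ) : PadicAlgCl q) ^ p = 1 := by
        rw [← Units.val_pow_eq_pow_val, hηp, Units.val_one]
      obtain ⟨i, -, hi⟩ := hζ.eq_pow_of_pow_eq_one h1
      apply Units.ext
      rw [hcompat, ← hi, smul_pow', hfix]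
    have hbb : b χ'.1 = η * (yu * b χ.1) := by
      show b χ'.1 = b χ'.1 / (yu * b χ.1) * (yu * b χ.1)
      rw [div_mul_cancel]
    apply Subtype.ext
    funext γ
    have h1 : ζu ^ (χ'.1 γ).val = ζu ^ (χ.1 γ).val := by
      rw [← hb χ'.1 χ'.2 γ, ← hb χ.1 χ.2 γ, hbb, smul_mul', smul_mul', hηfix, hyfix]
      rw [mul_div_mul_left_eq_div, mul_div_mul_left_eq_div]
    have h2 : ζ ^ (χ'.1 γ).val = ζ ^ (χ.1 γ).val := by
      have := congrArg (fun u : (PadicAlgCl q)ˣ => (u : PadicAlgCl q)) h1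
      simpa [ζu] using this
    have h3 := hζ.pow_inj (ZMod.val_lt _) (ZMod.val_lt _) h2
    exact (ZMod.val_injective p h3).symm
  have : Finite ↥(smChars q Γ p) := Finite.of_injective f hinj
  exact Set.toFinite _

omit [MulDistribMulAction Γ (PadicAlgCl q)ˣ] in
/-- `γ ^ (p - 1)` fixes the `p`-th roots of unity. -/
lemma kfin_pow_smul_root {p : ℕ} [Fact p.Prime] (ζ : PadicAlgCl q) (hζ : IsPrimitiveRoot ζ p)
    (γ : Γ) : γ ^ (p - 1) • ζ = ζ := by
  have hp : p.Prime := Fact.out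
  have : NeZero p := ⟨hp.ne_zero⟩
  have h1 : (γ • ζ) ^ p = 1 := by rw [← smul_pow', hζ.pow_eq_one, smul_one]
  obtain ⟨i, -, hi⟩ := hζ.eq_pow_of_pow_eq_one h1
  have hpow : ∀ n : ℕ, γ ^ n • ζ = ζ ^ (i ^ n) := by
    intro n
    induction n with
    | zero => simp
    | succ n ih => rw [pow_succ', mul_smul, ih, smul_pow', ← hi, ← pow_mul, ← pow_succ']
  have hi0 : (i : ZMod p) ≠ 0 := by
    intro h0
    have hdvd : p ∣ i := (ZMod.natCast_eq_zero_iff i p).1 h0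
    obtain ⟨d, rfl⟩ := hdvd
    rw [pow_mul, hζ.pow_eq_one, one_pow] at hi
    have hζ1 : ζ = 1 := by
      have h2 : γ⁻¹ • γ • ζ = γ⁻¹ • (1 : PadicAlgCl q) := by rw [← hi]
      rwa [inv_smul_smul, smul_one] at h2
    exact hζ.ne_one hp.one_lt hζ1
  have hfl : ((i ^ (p - 1) : ℕ) : ZMod p) = ((1 : ℕ) : ZMod p) := by
    push_cast
    exact ZMod.pow_card_sub_one_eq_one hi0
  have hmod : i ^ (p - 1) ≡ 1 [MOD p] := (ZMod.natCast_eq_natCast_iff _ _ _).1 hfl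
  rw [hpow, pow_eq_pow_mod _ hζ.pow_eq_one, hmod, ← pow_eq_pow_mod _ hζ.pow_eq_one, pow_one]

/-- **Local Kummer finiteness**: a local Galois group has finitely many smooth characters
`Γ → ℤ/p`. -/
theorem kfin_finite (hΓ : IsLocalGal q Γ) (p : ℕ) [Fact p.Prime] : (smChars q Γ p).Finite := by
  classical
  have hp : p.Prime := Fact.out
  have hne : NeZero (p : PadicAlgCl q) := ⟨Nat.cast_ne_zero.2 hp.ne_zero⟩
  obtain ⟨ζ, hζ⟩ := HasEnoughRootsOfUnity.exists_primitiveRoot (PadicAlgCl q) p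
  let Γ' : Subgroup Γ := lgbStab {ζ}
  have hopen : IsOpenSub q Γ' := lgb_isOpenSub_stab {ζ}
  have hΓ' : IsLocalGal q ↥Γ' := hΓ.subgroup Γ' hopen
  have hfix : ∀ γ : ↥Γ', γ • ζ = ζ := fun γ =>
    (lgb_mem_stab.1 γ.2) ζ (Finset.mem_singleton_self ζ)
  have hfin' := kfin_finite_of_fixed hΓ' ζ hζ hfix
  refine Set.Finite.of_injOn (f := fun χ => fun h : ↥Γ' => χ (h : Γ)) (t := smChars q ↥Γ' p)
    ?_ ?_ hfin'
  · rintro χ ⟨hadd, W, hWn, hWo, hWs⟩
    refine ⟨fun g h => hadd _ _, W.subgroupOf Γ', ?_, hWo.subgroupOf, fun g w hw => ?_⟩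
    · have : W.Normal := hWn
      infer_instance
    · exact hWs _ _ (Subgroup.mem_subgroupOf.1 hw)
  · rintro χ ⟨hadd, -⟩ χ' ⟨hadd', -⟩ hres
    funext γ
    have hmem : γ ^ (p - 1) ∈ Γ' := by
      rw [lgb_mem_stab]
      intro x hx
      rw [Finset.mem_singleton.1 hx]
      exact kfin_pow_smul_root ζ hζ γ
    have h1 := congrFun hres ⟨γ ^ (p - 1), hmem⟩
    simp only at h1
    rw [kfin_map_pow hadd, kfin_map_pow hadd'] at h1
    have hunit : ((p - 1 : ℕ) : ZMod p) ≠ 0 := by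
      intro h0
      have hdvd : p ∣ p - 1 := (ZMod.natCast_eq_zero_iff _ p).1 h0
      have := Nat.le_of_dvd (Nat.sub_pos_of_lt hp.one_lt) hdvd
      have := hp.one_lt
      omega
    rw [nsmul_eq_mul, nsmul_eq_mul] at h1
    have : Fact p.Prime := ⟨hp⟩
    exact mul_left_cancel₀ hunit h1

variable {Γ₀ : Type} [Group Γ₀] [MulSemiringAction Γ₀ (PadicAlgCl q)]
  [MulDistribMulAction Γ₀ (PadicAlgCl q)ˣ]

/-- **kfin**: `Hom_sm(Γ₀, 𝔽_p)` is finite for every level structure with open levels. -/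
theorem homFinite (𝓛 : Levels Γ₀) (hΓ : IsLocalGal q Γ₀) (hopen : ∀ V ∈ 𝓛.sets, IsOpenSub q V)
    (p : ℕ) [Fact p.Prime] : HomFinite p 𝓛 := by
  classical
  have hfin := kfin_finite hΓ p
  have hsub : ((Z1 𝓛 (Rep.trivial (ZMod p) Γ₀ (ZMod p)) : Submodule (ZMod p) _) :
      Set (Γ₀ → ZMod p)) ⊆ smChars q Γ₀ p := by
    rintro χ ⟨hc, U, hU, hχ⟩
    refine ⟨fun g h => ?_, U, 𝓛.normal U hU, hopen U hU, hχ⟩
    have := (mem_cocycles₁_iff (A := Rep.trivial (ZMod p) Γ₀ (ZMod p)) χ).1 hc g h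
    rw [this, add_comm]
    rfl
  have : Finite ↥(Z1 𝓛 (Rep.trivial (ZMod p) Γ₀ (ZMod p))) :=
    Set.finite_coe_iff.2 (hfin.subset hsub)
  exact Module.Finite.of_finite

/-- `kfin` for a local formation. -/
theorem LocFormation.homFinite {𝓛 : Levels Γ₀} {C : Rep.{0} ℤ Γ₀} (F : LocFormation q 𝓛 C)
    (p : ℕ) [Fact p.Prime] : HomFinite p 𝓛 :=
  Fermat.Agent.F4.Loc.homFinite 𝓛 F.isLocalGal F.isOpenSub p

end Fermat.Agent.F4.Loc
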