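import Fermat.Agent.F4.Loc.Smooth.H90
import Fermat.Agent.F4.Loc.Smooth.MA
import Fermat.Agent.F4.Loc.Smooth.F1
import Fermat.Agent.F4.Loc.Smooth.F3
import Fermat.Agent.F4.Loc.Smooth.KFin
import Fermat.Agent.F4.UC.Bridge

/-!
# F4 / Loc / Smooth / Main : the deliverables of SMOOTH (third wave of LOC), integrated

For every local formation `F : LocFormation q 𝓛 C` and every prime `p`:

* `F.h90sm    : UC.H90sm 𝓛 C`          (Smooth/H90.lean, helper90)
* `F.maBridge : MABridge F`             (Smooth/MA.lean, helper90)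
* `F.f1sm p   : UC.F1sm p 𝓛 C`         (Smooth/F1.lean, helper89)
* `F.f3sm p   : UC.F3sm p 𝓛 C`         (Smooth/F3.lean, helper39)
* `F.homFinite p : HomFinite p 𝓛`      (Smooth/KFin.lean, helper3)

and the same over every open subgroup `U` (formation `F.res U hU`, Smooth/Res.lean), in the exact
shape consumed by `F4/UC/Bridge.lean` (`D.depHH2_res`, `D.cupNondegRight_res`):

* `F.h90sm_res U hU`, `F.f1sm_res p U hU`, `F.f3sm_res p U hU`, `F.homFinite_res p U hU`,
  `F.h1p0_res p U hU`.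
-/

set_option autoImplicit false
set_option linter.unusedSectionVars false

open CategoryTheory groupCohomology

namespace Fermat.Agent.F4.Loc

namespace LocFormation

variable {q : ℕ} [Fact q.Prime] {Γ₀ : Type} [Group Γ₀]
  [MulSemiringAction Γ₀ (PadicAlgCl q)] [MulDistribMulAction Γ₀ (PadicAlgCl q)ˣ]
  {𝓛 : Levels Γ₀} {C : Rep.{0} ℤ Γ₀}

/-- `H¹(C)[p] = 0` for a local formation. -/
theorem h1p0 (F : LocFormation q 𝓛 C) (p : ℕ) : UC.H1p0 p 𝓛 C :=
  F.h90sm.h1p0

/-- Hilbert 90 over an open subgroup. -/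
theorem h90sm_res (F : LocFormation q 𝓛 C) (U : Subgroup Γ₀) (hU : 𝓛.IsOpen U) :
    UC.H90sm (𝓛.sub U) (Rep.res U.subtype C) := (F.res U hU).h90sm

/-- `H¹[p] = 0` over an open subgroup. -/
theorem h1p0_res (F : LocFormation q 𝓛 C) (p : ℕ) (U : Subgroup Γ₀) (hU : 𝓛.IsOpen U) :
    UC.H1p0 p (𝓛.sub U) (Rep.res U.subtype C) := (F.res U hU).h1p0 p

/-- The MA bridge over an open subgroup. -/
theorem maBridge_res (F : LocFormation q 𝓛 C) (U : Subgroup Γ₀) (hU : 𝓛.IsOpen U) :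
    MABridge (F.res U hU) := (F.res U hU).maBridge

/-- `F1sm` over an open subgroup. -/
theorem f1sm_res (F : LocFormation q 𝓛 C) (p : ℕ) [Fact p.Prime] (U : Subgroup Γ₀) (hU : 𝓛.IsOpen U) :
    UC.F1sm p (𝓛.sub U) (Rep.res U.subtype C) := (F.res U hU).f1sm p

/-- `F3sm` over an open subgroup. -/
theorem f3sm_res (F : LocFormation q 𝓛 C) (p : ℕ) [Fact p.Prime] (U : Subgroup Γ₀) (hU : 𝓛.IsOpen U) :
    UC.F3sm p (𝓛.sub U) (Rep.res U.subtype C) := (F.res U hU).f3sm p

/-- Finiteness of `Hom_sm(U, 𝔽_p)` over an open subgroup. -/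
theorem homFinite_res (F : LocFormation q 𝓛 C) (p : ℕ) [Fact p.Prime] (U : Subgroup Γ₀) (hU : 𝓛.IsOpen U) :
    HomFinite p (𝓛.sub U) := (F.res U hU).homFinite p

end LocFormation

end Fermat.Agent.F4.Loc
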