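import Fermat.Agent.F4.Loc.Formation

/-!
# F4 / Loc / Smooth / Level : the dictionary between `C` and `Ωˣ` (seat S-LVL, shared by SMOOTH)

`F : LocFormation q 𝓛 C`.  Additive cochains with values in `C` versus multiplicative cochains
with values in `Ωˣ = (PadicAlgCl q)ˣ` (through `F.j`):

* `F.jm : C → Ωˣ` and its rules (`jm_add`, `jm_ρ`, `jm_nsmul`, `jm_zsmul`, `jm_injective`);
* `toMul1_*`, `toMul2_*` : `toMul` of sums, multiples, `d₀₁`, `d₁₂` (`= mulD1`), cocycles;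
* `exists_level_isInfl1/2` : a level-constant cochain of `C` is `V`-inflated for a level `V`;
  `exists_level_isInfl2_pair` : a common level for two cochains;
* `exists_jm_eq`, `exists_toMul1_eq` : converse — a unit fixed by a level is in the image of
  `jm`; a cochain `Γ₀ → Ωˣ` which is right-invariant under a level with values fixed by a
  level is `toMul1` of a level-constant cochain of `C`;
* `smoothC1_toMul1`, `isSmCob2_toMul2_of_mem_B2` : from `𝓛`-smooth to smooth;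
* `mem_B2_of_toMul2_eq_mulD1`, `mem_B1_of_toMul1_eq` : back to `B2 𝓛 C`, `B1 C`.
-/

set_option autoImplicit false
set_option linter.unusedSectionVars false
set_option linter.style.haveILetI false
set_option linter.unusedVariables false

open CategoryTheory groupCohomology

namespace Fermat.Agent.F4.Loc

section Generic

variable {Γ M : Type*} [Group Γ] [CommGroup M] [MulDistribMulAction Γ M]

theorem IsConst1.mono {V V' : Subgroup Γ} {s : Γ → M} (hs : IsConst1 V s) (h : V' ≤ V) :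
    IsConst1 V' s := fun g v hv => hs g v (h hv)

theorem IsConst2.mono {V V' : Subgroup Γ} {c : Γ × Γ → M} (hc : IsConst2 V c) (h : V' ≤ V) :
    IsConst2 V' c := fun g g' v v' hv hv' => hc g g' v v' (h hv) (h hv')

theorem IsInfl1.mono {V V' : Subgroup Γ} {s : Γ → M} (hs : IsInfl1 V s) (h : V' ≤ V) :
    IsInfl1 V' s := ⟨hs.1.mono h, fun g v hv => hs.2 g v (h hv)⟩

theorem IsInfl2.mono {V V' : Subgroup Γ} {c : Γ × Γ → M} (hc : IsInfl2 V c) (h : V' ≤ V) :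
    IsInfl2 V' c := ⟨hc.1.mono h, fun g g' v hv => hc.2 g g' v (h hv)⟩

end Generic

namespace LocFormation

variable {q : ℕ} [Fact q.Prime] {Γ₀ : Type} [Group Γ₀]
  [MulSemiringAction Γ₀ (PadicAlgCl q)] [MulDistribMulAction Γ₀ (PadicAlgCl q)ˣ]
  {𝓛 : Levels Γ₀} {C : Rep.{0} ℤ Γ₀} (F : LocFormation q 𝓛 C)

/-! ### the map `jm : C → Ωˣ` -/

/-- `F.j` as a map to `Ωˣ`. -/
noncomputable def jm (c : C) : (PadicAlgCl q)ˣ := Additive.toMul (F.j c)

theorem toMul1_apply (c : Γ₀ → C) (g : Γ₀) : F.toMul1 c g = F.jm (c g) := rfl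

theorem toMul2_apply (w : Γ₀ × Γ₀ → C) (x : Γ₀ × Γ₀) : F.toMul2 w x = F.jm (w x) := rfl

theorem jm_zero : F.jm 0 = 1 := by
  show Additive.toMul (F.j 0) = 1
  rw [map_zero]; rfl

theorem jm_add (a b : C) : F.jm (a + b) = F.jm a * F.jm b := by
  show Additive.toMul (F.j (a + b)) = _
  rw [map_add]; rfl

theorem jm_neg (a : C) : F.jm (-a) = (F.jm a)⁻¹ := by
  show Additive.toMul (F.j (-a)) = _
  rw [map_neg]; rfl

theorem jm_sub (a b : C) : F.jm (a - b) = F.jm a / F.jm b := by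
  show Additive.toMul (F.j (a - b)) = _
  rw [map_sub]; rfl

theorem jm_nsmul (n : ℕ) (a : C) : F.jm (n • a) = F.jm a ^ n := by
  show Additive.toMul (F.j (n • a)) = _
  rw [map_nsmul]; rfl

theorem jm_zsmul (n : ℤ) (a : C) : F.jm (n • a) = F.jm a ^ n := by
  show Additive.toMul (F.j (n • a)) = _
  rw [map_zsmul]; rfl

theorem jm_ρ (g : Γ₀) (a : C) : F.jm (C.ρ g a) = g • F.jm a := by
  show Additive.toMul (F.j (C.ρ g a)) = _
  rw [F.j_comm]; rfl

theorem jm_injective : Function.Injective F.jm := fun a b h =>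
  F.j_inj (Additive.toMul.injective h)

theorem jm_eq_one_iff (a : C) : F.jm a = 1 ↔ a = 0 := by
  rw [← F.jm_zero]
  exact F.jm_injective.eq_iff

/-- A unit fixed by a level is in the image of `jm`. -/
theorem exists_jm_eq {u : (PadicAlgCl q)ˣ} (hu : ∃ V ∈ 𝓛.sets, IsFixedBy V u) :
    ∃ c : C, F.jm c = u := by
  obtain ⟨c, hc⟩ := (F.j_range u).2 hu
  exact ⟨c, congrArg Additive.toMul hc⟩

/-- Every element of the image of `jm` is fixed by a level. -/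
theorem exists_level_fixed (c : C) : ∃ V ∈ 𝓛.sets, IsFixedBy V (F.jm c) :=
  (F.j_range (F.jm c)).1 ⟨c, rfl⟩

/-- A unit fixed by the whole group is the image of an invariant of `C`. -/
theorem exists_jm_eq_of_fixed {u : (PadicAlgCl q)ˣ} (hu : ∀ g : Γ₀, g • u = u) :
    ∃ c : C, (∀ g, C.ρ g c = c) ∧ F.jm c = u := by
  obtain ⟨V, hV⟩ := 𝓛.nonempty
  obtain ⟨c, hc⟩ := F.exists_jm_eq ⟨V, hV, fun h _ => hu h⟩
  refine ⟨c, fun g => F.jm_injective ?_, hc⟩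
  rw [F.jm_ρ, hc, hu]

/-- Finitely many elements of `C` are fixed by a common level. -/
theorem exists_level_fixed_finset (s : Finset C) :
    ∃ V ∈ 𝓛.sets, ∀ c ∈ s, IsFixedBy V (F.jm c) := by
  classical
  induction s using Finset.induction_on with
  | empty =>
    obtain ⟨V, hV⟩ := 𝓛.nonempty
    exact ⟨V, hV, fun c hc => absurd hc (Finset.notMem_empty c)⟩
  | insert a s _ ih =>
    obtain ⟨V, hV, hfix⟩ := ih
    obtain ⟨V', hV', hfix'⟩ := F.exists_level_fixed a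
    obtain ⟨W, hW, hWle⟩ := 𝓛.directed V hV V' hV'
    refine ⟨W, hW, fun c hc h hh => ?_⟩
    rcases Finset.mem_insert.1 hc with rfl | hc
    · exact hfix' h (hWle hh).2
    · exact hfix c hc h (hWle hh).1

/-- Finitely many elements of `C` are fixed by a common level (set version). -/
theorem exists_level_fixed_of_finite {s : Set C} (hs : s.Finite) :
    ∃ V ∈ 𝓛.sets, ∀ c ∈ s, IsFixedBy V (F.jm c) := by
  obtain ⟨V, hV, h⟩ := F.exists_level_fixed_finset hs.toFinset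
  exact ⟨V, hV, fun c hc => h c (hs.mem_toFinset.2 hc)⟩

/-! ### level-constant cochains take finitely many values -/

omit [Fact q.Prime] [MulSemiringAction Γ₀ (PadicAlgCl q)]
  [MulDistribMulAction Γ₀ (PadicAlgCl q)ˣ] in
theorem finite_range_of_isLC₁ {X : Type*} {c : Γ₀ → X} (hc : IsLC₁ 𝓛 c) :
    (Set.range c).Finite := by
  obtain ⟨U, hU, h⟩ := hc
  haveI := 𝓛.finiteIndex U hU
  haveI : Finite (Γ₀ ⧸ U) := Subgroup.finite_quotient_of_finiteIndex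
  refine (Set.finite_range fun x : Γ₀ ⧸ U => c x.out).subset ?_
  rintro _ ⟨g, rfl⟩
  obtain ⟨s, hs⟩ := QuotientGroup.mk_out_eq_mul U g
  refine ⟨(g : Γ₀ ⧸ U), ?_⟩
  show c (Quotient.out (g : Γ₀ ⧸ U)) = c g
  rw [hs, h g s s.2]

omit [Fact q.Prime] [MulSemiringAction Γ₀ (PadicAlgCl q)]
  [MulDistribMulAction Γ₀ (PadicAlgCl q)ˣ] in
theorem finite_range_of_isLC₂ {X : Type*} {w : Γ₀ × Γ₀ → X} (hw : IsLC₂ 𝓛 w) :
    (Set.range w).Finite := by
  obtain ⟨U, hU, h⟩ := hw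
  haveI := 𝓛.finiteIndex U hU
  haveI : Finite (Γ₀ ⧸ U) := Subgroup.finite_quotient_of_finiteIndex
  refine (Set.finite_range fun x : (Γ₀ ⧸ U) × (Γ₀ ⧸ U) => w (x.1.out, x.2.out)).subset ?_
  rintro _ ⟨⟨g, g'⟩, rfl⟩
  obtain ⟨s, hs⟩ := QuotientGroup.mk_out_eq_mul U g
  obtain ⟨s', hs'⟩ := QuotientGroup.mk_out_eq_mul U g'
  refine ⟨((g : Γ₀ ⧸ U), (g' : Γ₀ ⧸ U)), ?_⟩
  show w (Quotient.out (g : Γ₀ ⧸ U), Quotient.out (g' : Γ₀ ⧸ U)) = w (g, g')
  rw [hs, hs', h g g' s s' s.2 s'.2]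

/-- **S-LVL (degree 1).**  A level-constant 1-cochain of `C` is `V`-inflated for a level `V`. -/
theorem exists_level_isInfl1 {c : Γ₀ → C} (hc : IsLC₁ 𝓛 c) :
    ∃ V ∈ 𝓛.sets, IsInfl1 V (F.toMul1 c) := by
  obtain ⟨V, hV, hfix⟩ := F.exists_level_fixed_of_finite (finite_range_of_isLC₁ hc)
  obtain ⟨U, hU, h⟩ := hc
  obtain ⟨W, hW, hWle⟩ := 𝓛.directed U hU V hV
  refine ⟨W, hW, fun g v hv => ?_, fun g v hv => ?_⟩
  · show F.jm (c (g * v)) = F.jm (c g)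
    rw [h g v (hWle hv).1]
  · exact hfix (c g) ⟨g, rfl⟩ v (hWle hv).2

/-- **S-LVL (degree 2).**  A level-constant 2-cochain of `C` is `V`-inflated for a level `V`. -/
theorem exists_level_isInfl2 {w : Γ₀ × Γ₀ → C} (hw : IsLC₂ 𝓛 w) :
    ∃ V ∈ 𝓛.sets, IsInfl2 V (F.toMul2 w) := by
  obtain ⟨V, hV, hfix⟩ := F.exists_level_fixed_of_finite (finite_range_of_isLC₂ hw)
  obtain ⟨U, hU, h⟩ := hw
  obtain ⟨W, hW, hWle⟩ := 𝓛.directed U hU V hV
  refine ⟨W, hW, fun g g' v v' hv hv' => ?_, fun g g' v hv => ?_⟩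
  · show F.jm (w (g * v, g' * v')) = F.jm (w (g, g'))
    rw [h g g' v v' (hWle hv).1 (hWle hv').1]
  · exact hfix (w (g, g')) ⟨(g, g'), rfl⟩ v (hWle hv).2

/-- A common level for two level-constant 2-cochains. -/
theorem exists_level_isInfl2_pair {w₁ w₂ : Γ₀ × Γ₀ → C} (h₁ : IsLC₂ 𝓛 w₁) (h₂ : IsLC₂ 𝓛 w₂) :
    ∃ V ∈ 𝓛.sets, IsInfl2 V (F.toMul2 w₁) ∧ IsInfl2 V (F.toMul2 w₂) := by
  obtain ⟨V₁, hV₁, hi₁⟩ := F.exists_level_isInfl2 h₁
  obtain ⟨V₂, hV₂, hi₂⟩ := F.exists_level_isInfl2 h₂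
  obtain ⟨W, hW, hWle⟩ := 𝓛.directed V₁ hV₁ V₂ hV₂
  exact ⟨W, hW, hi₁.mono fun _ h => (hWle h).1, hi₂.mono fun _ h => (hWle h).2⟩

/-- A common level for a 2-cochain and a 1-cochain. -/
theorem exists_level_isInfl2_isInfl1 {w : Γ₀ × Γ₀ → C} {c : Γ₀ → C} (hw : IsLC₂ 𝓛 w)
    (hc : IsLC₁ 𝓛 c) :
    ∃ V ∈ 𝓛.sets, IsInfl2 V (F.toMul2 w) ∧ IsInfl1 V (F.toMul1 c) := by
  obtain ⟨V₁, hV₁, hi₁⟩ := F.exists_level_isInfl2 hw
  obtain ⟨V₂, hV₂, hi₂⟩ := F.exists_level_isInfl1 hc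
  obtain ⟨W, hW, hWle⟩ := 𝓛.directed V₁ hV₁ V₂ hV₂
  exact ⟨W, hW, hi₁.mono fun _ h => (hWle h).1, hi₂.mono fun _ h => (hWle h).2⟩

/-! ### `toMul` of sums, multiples, differentials -/

theorem toMul1_injective : Function.Injective F.toMul1 := fun c c' h =>
  funext fun g => F.jm_injective (congrFun h g)

theorem toMul2_injective : Function.Injective F.toMul2 := fun w w' h =>
  funext fun x => F.jm_injective (congrFun h x)

theorem toMul1_zero : F.toMul1 0 = 1 := funext fun _ => F.jm_zero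

theorem toMul2_zero : F.toMul2 0 = 1 := funext fun _ => F.jm_zero

theorem toMul1_add (c c' : Γ₀ → C) : F.toMul1 (c + c') = F.toMul1 c * F.toMul1 c' :=
  funext fun g => F.jm_add (c g) (c' g)

theorem toMul2_add (w w' : Γ₀ × Γ₀ → C) : F.toMul2 (w + w') = F.toMul2 w * F.toMul2 w' :=
  funext fun x => F.jm_add (w x) (w' x)

theorem toMul1_neg (c : Γ₀ → C) : F.toMul1 (-c) = (F.toMul1 c)⁻¹ :=
  funext fun g => F.jm_neg (c g)

theorem toMul2_neg (w : Γ₀ × Γ₀ → C) : F.toMul2 (-w) = (F.toMul2 w)⁻¹ :=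
  funext fun x => F.jm_neg (w x)

theorem toMul1_sub (c c' : Γ₀ → C) : F.toMul1 (c - c') = F.toMul1 c / F.toMul1 c' :=
  funext fun g => F.jm_sub (c g) (c' g)

theorem toMul2_sub (w w' : Γ₀ × Γ₀ → C) : F.toMul2 (w - w') = F.toMul2 w / F.toMul2 w' :=
  funext fun x => F.jm_sub (w x) (w' x)

theorem toMul1_nsmul (n : ℕ) (c : Γ₀ → C) : F.toMul1 (fun g => n • c g) = F.toMul1 c ^ n :=
  funext fun g => F.jm_nsmul n (c g)

theorem toMul2_nsmul (n : ℕ) (w : Γ₀ × Γ₀ → C) : F.toMul2 (fun x => n • w x) = F.toMul2 w ^ n :=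
  funext fun x => F.jm_nsmul n (w x)

theorem toMul1_zsmul (n : ℤ) (c : Γ₀ → C) : F.toMul1 (fun g => n • c g) = F.toMul1 c ^ n :=
  funext fun g => F.jm_zsmul n (c g)

theorem toMul2_zsmul (n : ℤ) (w : Γ₀ × Γ₀ → C) : F.toMul2 (fun x => n • w x) = F.toMul2 w ^ n :=
  funext fun x => F.jm_zsmul n (w x)

/-- `toMul` of a 1-coboundary. -/
theorem toMul1_d₀₁ (a : C) (g : Γ₀) : F.toMul1 ((d₀₁ C).hom a) g = g • F.jm a / F.jm a := by
  show F.jm ((d₀₁ C).hom a g) = _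
  rw [d₀₁_hom_apply, F.jm_sub, F.jm_ρ]

/-- `toMul` of a 2-coboundary is the multiplicative coboundary `mulD1`. -/
theorem toMul2_d₁₂ (s : Γ₀ → C) : F.toMul2 ((d₁₂ C).hom s) = mulD1 (F.toMul1 s) := by
  funext ⟨g, h⟩
  show F.jm ((d₁₂ C).hom s (g, h)) = _
  rw [d₁₂_hom_apply, mulD1_apply, F.jm_add, F.jm_sub, F.jm_ρ]
  rfl

/-- `toMul` of a 1-cocycle is a multiplicative 1-cocycle. -/
theorem isMulCocycle₁_toMul1 {c : Γ₀ → C} (hc : c ∈ cocycles₁ C) :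
    IsMulCocycle₁ (F.toMul1 c) := by
  intro g h
  have := (mem_cocycles₁_iff c).1 hc g h
  show F.jm (c (g * h)) = g • F.jm (c h) * F.jm (c g)
  rw [this, F.jm_add, F.jm_ρ]

/-- `toMul` of a 2-cocycle is a multiplicative 2-cocycle. -/
theorem isMulCocycle₂_toMul2 {w : Γ₀ × Γ₀ → C} (hw : w ∈ cocycles₂ C) :
    IsMulCocycle₂ (F.toMul2 w) := by
  intro g h j
  have := (mem_cocycles₂_iff w).1 hw g h j
  show F.jm (w (g * h, j)) * F.jm (w (g, h)) = g • F.jm (w (h, j)) * F.jm (w (g, h * j))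
  rw [← F.jm_add, this, F.jm_add, F.jm_ρ]

/-- Conversely: a cochain of `C` whose `toMul` is a multiplicative 1-cocycle is a cocycle. -/
theorem mem_cocycles₁_of_toMul1 {c : Γ₀ → C} (hc : IsMulCocycle₁ (F.toMul1 c)) :
    c ∈ cocycles₁ C := by
  refine (mem_cocycles₁_iff c).2 fun g h => F.jm_injective ?_
  rw [F.jm_add, F.jm_ρ]
  exact hc g h

/-- Conversely: a cochain of `C` whose `toMul` is a multiplicative 2-cocycle is a cocycle. -/
theorem mem_cocycles₂_of_toMul2 {w : Γ₀ × Γ₀ → C} (hw : IsMulCocycle₂ (F.toMul2 w)) :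
    w ∈ cocycles₂ C := by
  refine (mem_cocycles₂_iff w).2 fun g h j => F.jm_injective ?_
  rw [F.jm_add, F.jm_add, F.jm_ρ]
  exact hw g h j

/-! ### from `Ωˣ` back to `C` -/

/-- **S-LVL (converse, degree 1).**  A cochain `Γ₀ → Ωˣ` which is right-invariant under a level
and whose values are fixed by a level is `toMul1` of a level-constant cochain of `C`. -/
theorem exists_toMul1_eq {V V' : Subgroup Γ₀} (hV : V ∈ 𝓛.sets) (hV' : V' ∈ 𝓛.sets)
    {s : Γ₀ → (PadicAlgCl q)ˣ} (hs : IsConst1 V s) (hfix : ∀ g, IsFixedBy V' (s g)) :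
    ∃ s' : Γ₀ → C, IsLC₁ 𝓛 s' ∧ F.toMul1 s' = s := by
  choose s' hs' using fun g => F.exists_jm_eq ⟨V', hV', hfix g⟩
  refine ⟨s', ⟨V, hV, fun g v hv => F.jm_injective ?_⟩, funext hs'⟩
  rw [hs', hs', hs g v hv]

/-- A `V`-inflated 1-cochain (`V` a level) is `toMul1` of a level-constant cochain of `C`. -/
theorem exists_toMul1_eq_of_isInfl1 {V : Subgroup Γ₀} (hV : V ∈ 𝓛.sets)
    {s : Γ₀ → (PadicAlgCl q)ˣ} (hs : IsInfl1 V s) :
    ∃ s' : Γ₀ → C, IsLC₁ 𝓛 s' ∧ F.toMul1 s' = s :=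
  F.exists_toMul1_eq hV hV hs.1 fun g v hv => hs.2 g v hv

/-- A `V`-inflated 2-cochain (`V` a level) is `toMul2` of a level-constant cochain of `C`. -/
theorem exists_toMul2_eq_of_isInfl2 {V : Subgroup Γ₀} (hV : V ∈ 𝓛.sets)
    {c : Γ₀ × Γ₀ → (PadicAlgCl q)ˣ} (hc : IsInfl2 V c) :
    ∃ w : Γ₀ × Γ₀ → C, IsLC₂ 𝓛 w ∧ F.toMul2 w = c := by
  choose w hw using fun x : Γ₀ × Γ₀ => F.exists_jm_eq ⟨V, hV, fun v hv => hc.2 x.1 x.2 v hv⟩
  refine ⟨w, ⟨V, hV, fun g g' v v' hv hv' => F.jm_injective ?_⟩, funext hw⟩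
  rw [hw, hw]
  exact hc.1 g g' v v' hv hv'

/-! ### smoothness -/

/-- `toMul1` of a level-constant cochain is smooth (for the full topology). -/
theorem smoothC1_toMul1 {c : Γ₀ → C} (hc : IsLC₁ 𝓛 c) : SmoothC1 q (F.toMul1 c) := by
  obtain ⟨U, hU, h⟩ := hc
  exact ⟨U, 𝓛.normal U hU, F.isOpenSub U hU, fun g v hv => by
    show F.jm (c (g * v)) = F.jm (c g)
    rw [h g v hv]⟩

/-- `toMul2` of a level-constant cochain is smooth (for the full topology). -/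
theorem smoothC2_toMul2 {w : Γ₀ × Γ₀ → C} (hw : IsLC₂ 𝓛 w) : SmoothC2 q (F.toMul2 w) := by
  obtain ⟨U, hU, h⟩ := hw
  exact ⟨U, 𝓛.normal U hU, F.isOpenSub U hU, fun g g' v v' hv hv' => by
    show F.jm (w (g * v, g' * v')) = F.jm (w (g, g'))
    rw [h g g' v v' hv hv']⟩

/-- `toMul2` of an `𝓛`-smooth coboundary of `C` is a smooth coboundary. -/
theorem isSmCob2_toMul2_of_mem_B2 {w : Γ₀ × Γ₀ → C} (hw : w ∈ B2 𝓛 C) :
    IsSmCob2 (F.toMul2 w) := by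
  obtain ⟨s, hs, rfl⟩ := hw
  exact ⟨F.toMul1 s, F.smoothC1_toMul1 hs, F.toMul2_d₁₂ s⟩

/-- Back to `B2 𝓛 C`: if `toMul2 w` is the coboundary of a cochain inflated from a level, then
`w` is an `𝓛`-smooth coboundary. -/
theorem mem_B2_of_toMul2_eq_mulD1 {V : Subgroup Γ₀} (hV : V ∈ 𝓛.sets) {w : Γ₀ × Γ₀ → C}
    {s : Γ₀ → (PadicAlgCl q)ˣ} (hs : IsInfl1 V s) (h : F.toMul2 w = mulD1 s) : w ∈ B2 𝓛 C := by
  obtain ⟨s', hs', rfl⟩ := F.exists_toMul1_eq_of_isInfl1 hV hs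
  refine ⟨s', hs', F.toMul2_injective ?_⟩
  rw [F.toMul2_d₁₂, h]

/-- Back to `B1 C`: if `toMul1 c` is the coboundary of a unit fixed by a level, then `c` is a
coboundary of `C`. -/
theorem mem_B1_of_toMul1_eq {c : Γ₀ → C} {b : (PadicAlgCl q)ˣ}
    (hb : ∃ V ∈ 𝓛.sets, IsFixedBy V b) (h : ∀ g, F.toMul1 c g = g • b / b) : c ∈ B1 C := by
  obtain ⟨a, rfl⟩ := F.exists_jm_eq hb
  refine ⟨a, F.toMul1_injective (funext fun g => ?_)⟩
  rw [F.toMul1_d₀₁, h]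

end LocFormation

end Fermat.Agent.F4.Loc
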