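import Fermat.Agent.F4.Loc.Smooth.Level
import Fermat.Agent.F4.Formation

/-!
# F4 / Loc / Smooth / Res : restriction of a local formation to an open subgroup (seat S-RES)

`F : LocFormation q 𝓛 C`, `U` a subgroup of `Γ₀` which is open for `𝓛` (contains a level).

* `F.res U hU : LocFormation q (𝓛.sub U) (Rep.res U.subtype C)` (same `j`);
* `res_jm`, `res_toMul1`, `res_toMul2` : `toMul` commutes with restriction (`resC1`, `resC2`), by `rfl`;
* `isOpenSub_of_isOpen` : a subgroup which is open for `𝓛` is `IsOpenSub`;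
* `exists_fixed_sub_iff'` : fixed by a level of `𝓛.sub U` iff fixed by a level of `𝓛`;
* `isLC₁_res`, `isLC₂_res`, `res_mem_Z2`, `res_mem_B2` : restriction of `𝓛`-smooth cochains.
-/

set_option autoImplicit false
set_option linter.unusedSectionVars false
set_option linter.unusedVariables false

open CategoryTheory groupCohomology

namespace Fermat.Agent.F4.Loc

namespace LocFormation

variable {q : ℕ} [Fact q.Prime] {Γ₀ : Type} [Group Γ₀]
  [MulSemiringAction Γ₀ (PadicAlgCl q)] [MulDistribMulAction Γ₀ (PadicAlgCl q)ˣ]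
  {𝓛 : Levels Γ₀} {C : Rep.{0} ℤ Γ₀} (F : LocFormation q 𝓛 C)

include F in
/-- A subgroup which is open for the level structure is open (`IsOpenSub`). -/
theorem isOpenSub_of_isOpen {U : Subgroup Γ₀} (hU : 𝓛.IsOpen U) : IsOpenSub q U := by
  obtain ⟨V, hV, hVU⟩ := hU
  exact (F.isOpenSub V hV).of_le F.isLocalGal hVU

/-- A unit is fixed by a level of `𝓛.sub U` iff it is fixed by a level of `𝓛` (`U` open). -/
theorem exists_fixed_sub_iff' {U : Subgroup Γ₀} (hU : 𝓛.IsOpen U) (u : (PadicAlgCl q)ˣ) :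
    (∃ V ∈ (𝓛.sub U).sets, IsFixedBy V u) ↔ ∃ V ∈ 𝓛.sets, IsFixedBy V u := by
  constructor
  · rintro ⟨_, ⟨V, hV, rfl⟩, hfix⟩
    obtain ⟨V₀, hV₀, hV₀U⟩ := hU
    obtain ⟨W, hW, hWle⟩ := 𝓛.directed V hV V₀ hV₀
    refine ⟨W, hW, fun h hh => ?_⟩
    exact hfix ⟨h, hV₀U (hWle hh).2⟩ (hWle hh).1
  · rintro ⟨V, hV, hfix⟩
    exact ⟨V.comap U.subtype, ⟨V, hV, rfl⟩, fun h hh => hfix (h : Γ₀) hh⟩

/-- **S-RES.**  The formation over an open subgroup `U`: `(↥U, 𝓛.sub U, C|_U)`. -/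
noncomputable def res (U : Subgroup Γ₀) (hU : 𝓛.IsOpen U) :
    LocFormation q (𝓛.sub U) (Rep.res U.subtype C) where
  isLocalGal := F.isLocalGal.subgroup U (F.isOpenSub_of_isOpen hU)
  isOpenSub := by
    rintro _ ⟨V, hV, rfl⟩
    exact (F.isOpenSub V hV).subgroupOf
  j := F.j
  j_inj := F.j_inj
  j_comm γ c := F.j_comm (γ : Γ₀) c
  j_range u := (F.j_range u).trans (exists_fixed_sub_iff' hU u).symm

variable (U : Subgroup Γ₀) (hU : 𝓛.IsOpen U)

@[simp] theorem res_j : (F.res U hU).j = F.j := rfl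

theorem res_jm (c : C) : (F.res U hU).jm c = F.jm c := rfl

/-- `toMul1` commutes with restriction. -/
theorem res_toMul1 (c : Γ₀ → C) :
    (F.res U hU).toMul1 (fun u : U => c u) = resC1 U (F.toMul1 c) := rfl

/-- `toMul2` commutes with restriction. -/
theorem res_toMul2 (w : Γ₀ × Γ₀ → C) :
    (F.res U hU).toMul2 (fun x : U × U => w (x.1, x.2)) = resC2 U (F.toMul2 w) := rfl

omit [Fact q.Prime] [MulSemiringAction Γ₀ (PadicAlgCl q)]
  [MulDistribMulAction Γ₀ (PadicAlgCl q)ˣ] in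
/-- Restriction of a level-constant 1-cochain. -/
theorem isLC₁_res {X : Type*} {c : Γ₀ → X} (hc : IsLC₁ 𝓛 c) :
    IsLC₁ (𝓛.sub U) (fun u : U => c u) :=
  IsLC₁.comp_hom 𝓛 U.subtype hc

omit [Fact q.Prime] [MulSemiringAction Γ₀ (PadicAlgCl q)]
  [MulDistribMulAction Γ₀ (PadicAlgCl q)ˣ] in
/-- Restriction of a level-constant 2-cochain. -/
theorem isLC₂_res {X : Type*} {w : Γ₀ × Γ₀ → X} (hw : IsLC₂ 𝓛 w) :
    IsLC₂ (𝓛.sub U) (fun x : U × U => w (x.1, x.2)) :=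
  IsLC₂.comp_hom 𝓛 U.subtype hw

omit [Fact q.Prime] [MulSemiringAction Γ₀ (PadicAlgCl q)]
  [MulDistribMulAction Γ₀ (PadicAlgCl q)ˣ] in
/-- Restriction of a smooth 2-cocycle. -/
theorem res_mem_Z2 {w : Γ₀ × Γ₀ → C} (hw : w ∈ Z2 𝓛 C) :
    (fun x : U × U => w (x.1, x.2)) ∈ Z2 (𝓛.sub U) (Rep.res U.subtype C) :=
  (Z2res 𝓛 C U.subtype ⟨w, hw⟩).2

omit [Fact q.Prime] [MulSemiringAction Γ₀ (PadicAlgCl q)]
  [MulDistribMulAction Γ₀ (PadicAlgCl q)ˣ] in
/-- Restriction of a smooth 1-cocycle. -/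
theorem res_mem_Z1 {c : Γ₀ → C} (hc : c ∈ Z1 𝓛 C) :
    (fun u : U => c u) ∈ Z1 (𝓛.sub U) (Rep.res U.subtype C) :=
  (Z1res 𝓛 C U.subtype ⟨c, hc⟩).2

omit [Fact q.Prime] [MulSemiringAction Γ₀ (PadicAlgCl q)]
  [MulDistribMulAction Γ₀ (PadicAlgCl q)ˣ] in
/-- Restriction of a smooth 2-coboundary. -/
theorem res_mem_B2 {w : Γ₀ × Γ₀ → C} (hw : w ∈ B2 𝓛 C) :
    (fun x : U × U => w (x.1, x.2)) ∈ B2 (𝓛.sub U) (Rep.res U.subtype C) := by
  obtain ⟨s, hs, rfl⟩ := hw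
  refine ⟨fun u : U => s u, isLC₁_res U hs, ?_⟩
  funext x
  show (d₁₂ (Rep.res U.subtype C)).hom (fun u : U => s u) x = (d₁₂ C).hom s (x.1, x.2)
  rw [d₁₂_hom_apply, d₁₂_hom_apply]
  rfl

end LocFormation

end Fermat.Agent.F4.Loc
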